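/-
helper95 (P-SS, row 889, SSH-15 FINITE-ZEROS): a nonzero element of the model field
`E₀ = ModelField K₁ N` has finitely many zeros and poles among the places of `E₀ / K₁`.

General statement (`finite_ord_ne_zero_of_finite`): `K` a field of characteristic zero, `F / K` a
field extension which is finite over `K(x)` for some `x`; then every nonzero `f ∈ F` is a unit at
all but finitely many places of `F / K`.  Proof: if `f` is algebraic over `K` then `f` and `f⁻¹`
lie in every valuation ring containing `K`.  Otherwise `F` is finite over `K(f)`, the integral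
closure `B` of `K[f]` in `F` is a Dedekind domain with fraction field `F`, every place at which
`f` vanishes is the place of a height one prime of `B` containing `f`, and there are only finitely
many of these.  The poles of `f` are the zeros of `f⁻¹`.
-/
import Fermat.Agent.H45.SS.Model
import Fermat.Agent.H70.SS.AsmJ
import Fermat.Agent.H29.PlaceDedekind
import Fermat.Agent.H54.EsC.FieldFinite

set_option autoImplicit false

noncomputable section

open AlgebraicCurve IntermediateField Polynomial IsDedekindDomain
open scoped IntermediateField.algebraAdjoinAdjoin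

namespace Fermat.Agent.H95.SS

section General

variable {K F : Type*} [Field K] [Field F] [Algebra K F]

/-- An element algebraic over the constants lies in every valuation ring of a place. -/
theorem mem_place_of_isAlgebraic (v : Place K F) {f : F} (ha : IsAlgebraic K f) :
    f ∈ v.toValuationSubring := by
  have h1 : IsIntegral K f := ha.isIntegral
  have h2 : IsIntegral v.toValuationSubring f := h1.tower_top
  obtain ⟨a, ha⟩ := IsIntegrallyClosed.isIntegral_iff.mp h2
  rw [← ha]
  exact a.2

/-- A nonzero element algebraic over the constants has order zero at every place. -/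
theorem ord_eq_zero_of_isAlgebraic (v : Place K F) {f : F} (ha : IsAlgebraic K f) :
    v.ord f = 0 := by
  have h1 : 0 ≤ v.ord f :=
    Fermat.Agent.H29.place_ord_nonneg_of_mem v (mem_place_of_isAlgebraic v ha)
  have h2 : 0 ≤ v.ord f⁻¹ :=
    Fermat.Agent.H29.place_ord_nonneg_of_mem v (mem_place_of_isAlgebraic v ha.inv)
  rw [Place.ord_inv] at h2
  omega

/-- The zeros of a transcendental element `y` with `F / K(y)` finite are finite in number. -/
theorem finite_zeros_of_transcendental [CharZero K] (y : F) (hy : Transcendental K y)
    [FiniteDimensional K⟮y⟯ F] : {v : Place K F | 0 < v.ord y}.Finite := by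
  classical
  let A := Algebra.adjoin K {y}
  let yA : A := ⟨y, Algebra.self_mem_adjoin_singleton K y⟩
  let e : K[X] ≃ₐ[K] A := Polynomial.algEquivOfTranscendental K y hy
  have hPIR : IsPrincipalIdealRing A :=
    IsPrincipalIdealRing.of_surjective e.toRingEquiv.toRingHom e.surjective
  have hDA : IsDedekindDomain A := inferInstance
  have hy0 : y ≠ 0 := by
    intro h0
    apply hy
    rw [h0]
    exact isAlgebraic_zero
  have hcharL : CharZero K⟮y⟯ := charZero_of_injective_algebraMap (algebraMap K K⟮y⟯).injective
  have hsep : Algebra.IsSeparable K⟮y⟯ F := inferInstance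
  let B := integralClosure A F
  have hDB : IsDedekindDomain B := integralClosure.isDedekindDomain A K⟮y⟯ F
  have hFB : IsFractionRing B F := integralClosure.isFractionRing_of_finite_extension K⟮y⟯ F
  have hKBF : IsScalarTower K B F := IsScalarTower.of_algebraMap_eq (fun c => rfl)
  let yB : B := algebraMap A B yA
  have hyB : algebraMap B F yB = y := rfl
  have hyB0 : yB ≠ 0 := by
    intro h
    apply hy0
    rw [← hyB, h, map_zero]
  have hfin : {w : HeightOneSpectrum B | w.asIdeal ∣ Ideal.span {yB}}.Finite :=
    Ideal.finite_factors (by simpa [Ideal.span_singleton_eq_bot] using hyB0)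
  refine (hfin.image (Place.ofHeightOneSpectrum (K := K) (F := F) (R := B))).subset ?_
  intro v hv
  have hv' : 0 < v.ord y := hv
  have hyv : y ∈ v.toValuationSubring := Fermat.Agent.H29.place_mem_of_ord_nonneg v hv'.le
  have hAv : ∀ a : A, (a : F) ∈ v.toValuationSubring := by
    intro a
    have ha : (a : F) ∈ Algebra.adjoin K {y} := a.2
    rw [Algebra.adjoin_singleton_eq_range_aeval] at ha
    obtain ⟨q, hq⟩ := ha
    rw [← hq]
    show aeval y q ∈ _
    rw [Polynomial.aeval_eq_sum_range]
    refine sum_mem (fun i _ => ?_)
    rw [Algebra.smul_def]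
    exact mul_mem (v.algebraMap_mem' _) (pow_mem hyv _)
  have hBv : ∀ b : B, algebraMap B F b ∈ v.toValuationSubring := by
    intro b
    let ψ : A →+* v.toValuationSubring :=
      (algebraMap A F).codRestrict v.toValuationSubring.toSubring hAv
    let _ : Algebra A v.toValuationSubring := ψ.toAlgebra
    have : IsScalarTower A v.toValuationSubring F :=
      IsScalarTower.of_algebraMap_eq (fun a => rfl)
    have hb : IsIntegral A (algebraMap B F b) := b.2
    have hb' : IsIntegral v.toValuationSubring (algebraMap B F b) := hb.tower_top
    obtain ⟨a, ha⟩ := IsIntegrallyClosed.isIntegral_iff.mp hb'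
    rw [← ha]
    exact a.2
  obtain ⟨w, hw⟩ := Fermat.Agent.H29.exists_heightOneSpectrum_of_le (K := K) (F := F) (R := B)
    v hBv ⟨yB, hyB0, hv'⟩
  have hyw : yB ∈ w.asIdeal := by
    apply (Fermat.Agent.H29.ord_ofHeightOneSpectrum_pos_iff (K := K) (F := F) (R := B) w yB).mp
    right
    rw [hw]
    exact hv'
  refine ⟨w, ?_, hw⟩
  show w.asIdeal ∣ Ideal.span {yB}
  rw [Ideal.dvd_span_singleton]
  exact hyw

/-- **Finiteness of zeros and poles** in a function field of one variable over a field of
characteristic zero. -/
theorem finite_ord_ne_zero_of_finite [CharZero K] (x : F) (hfin : FiniteDimensional K⟮x⟯ F)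
    (f : F) : {v : Place K F | v.ord f ≠ 0}.Finite := by
  by_cases hfa : IsAlgebraic K f
  · have : {v : Place K F | v.ord f ≠ 0} = ∅ := by
      ext v
      simp [ord_eq_zero_of_isAlgebraic v hfa]
    rw [this]
    exact Set.finite_empty
  · have hft : Transcendental K f := hfa
    have hft' : Transcendental K f⁻¹ := by
      intro h
      apply hfa
      have := h.inv
      rwa [inv_inv] at this
    have hfinf : FiniteDimensional K⟮f⟯ F :=
      Fermat.Agent.H54.finiteDimensional_adjoin_simple_of_transcendental hfin hft
    have hfinf' : FiniteDimensional K⟮f⁻¹⟯ F :=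
      Fermat.Agent.H54.finiteDimensional_adjoin_simple_of_transcendental hfin hft'
    have h1 := finite_zeros_of_transcendental f hft
    have h2 := finite_zeros_of_transcendental f⁻¹ hft'
    refine (h1.union h2).subset fun v hv => ?_
    simp only [Set.mem_ofPred_eq, Set.mem_union, Place.ord_inv] at hv ⊢
    omega

end General

section Model

open ModularCurve Fermat.Agent.H22.KL Fermat.Agent.H45

/-- Finiteness over the chart field of `x` gives finiteness over `K(x)`. -/
theorem finiteDimensional_adjoin_of_chartField {K E : Type} [Field K] [Field E] [Algebra K E]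
    (x : E) [Module.Finite (chartField K E x) E] : FiniteDimensional K⟮x⟯ E := by
  have hle : ∀ a ∈ chartField K E x, a ∈ K⟮x⟯ := by
    intro a ha
    have h1 : chartField K E x ≤ K⟮x⟯.toSubfield := by
      refine Subfield.closure_le.2 ?_
      intro z hz
      exact IntermediateField.algebra_adjoin_le_adjoin K _ hz
    exact h1 ha
  let φ : chartField K E x →+* K⟮x⟯ :=
    { toFun := fun a => ⟨a.1, hle a.1 a.2⟩
      map_one' := rfl
      map_mul' := fun _ _ => rfl
      map_zero' := rfl
      map_add' := fun _ _ => rfl }
  let _ : Algebra (chartField K E x) K⟮x⟯ := φ.toAlgebra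
  have : IsScalarTower (chartField K E x) K⟮x⟯ E := IsScalarTower.of_algebraMap_eq (fun a => rfl)
  exact Module.Finite.of_restrictScalars_finite (chartField K E x) K⟮x⟯ E

/-- **SSH-15 (FINITE-ZEROS).** -/
theorem modelFiniteZeros (N : ℕ) [NeZero N] : Fermat.Agent.H45.ModelFiniteZerosStatement N := by
  intro K₁ _ _ _ f _
  have hchar : CharZero K₁ := charZero_of_injective_algebraMap (algebraMap ℚ K₁).injective
  let x : ModelField K₁ N :=
    ⟨coeffEmb K₁ jq, coeffEmb_mem_laurentBaseChange K₁ (Fermat.Agent.H70.SS.jq_mem_full_ss N)⟩
  obtain ⟨n, ⟨b⟩⟩ := Fermat.Agent.H70.SS.modelFinite_jq N K₁ K₁ x rfl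
  have hfin : Module.Finite (chartField K₁ (ModelField K₁ N) x) (ModelField K₁ N) :=
    Module.Finite.of_basis b
  exact finite_ord_ne_zero_of_finite x (finiteDimensional_adjoin_of_chartField x) f

end Model

end Fermat.Agent.H95.SS
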